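import Mathlib

/-!
# Row LT, tower T1 (basics) — helper767: the integers of a finite completion are compact

OFF-MAIN.  Mathlib only.

* `finite_residueField_adicCompletionIntegers` : the residue field of `𝒪_v` is finite.
* `compactSpace_adicCompletionIntegers` : `𝒪_v` is compact.
* `isCompact_adicCompletionIntegers` : the same as a subset of `K_v`.
-/

set_option autoImplicit false

open NumberField IsDedekindDomain IsDedekindDomain.HeightOneSpectrum

noncomputable section

namespace Fermat.Agent.LT.H767

variable (K : Type*) [Field K] [NumberField K]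

/-- Every element of `K_v` is close to an element of `K`. -/
theorem exists_sub_lt_one (v : HeightOneSpectrum (𝓞 K)) (x : v.adicCompletion K) :
    ∃ k : K, Valued.v (algebraMap K (v.adicCompletion K) k - x) < 1 := by
  have hn : Metric.ball x 1 ∈ nhds x := Metric.ball_mem_nhds x one_pos
  have hd : DenseRange (algebraMap K (v.adicCompletion K)) := denseRange_algebraMap K v
  obtain ⟨y, hy, k, rfl⟩ := mem_closure_iff_nhds.mp (hd x) _ hn
  refine ⟨k, ?_⟩
  rw [Metric.mem_ball, dist_eq_norm] at hy
  exact Valued.toNormedField.norm_lt_one_iff.mp hy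

/-- Every element of `𝒪_v` is congruent modulo the maximal ideal to an element of `𝓞 K`. -/
theorem exists_int_sub_lt_one (v : HeightOneSpectrum (𝓞 K)) (x : v.adicCompletion K)
    (hx : Valued.v x ≤ 1) :
    ∃ a : 𝓞 K, Valued.v (algebraMap K (v.adicCompletion K) (algebraMap (𝓞 K) K a) - x) < 1 := by
  obtain ⟨k, hk⟩ := exists_sub_lt_one K v x
  have hk1 : v.valuation K k ≤ 1 := by
    rw [← valuedAdicCompletion_eq_valuation' v k]
    have : (algebraMap K (v.adicCompletion K) k) = (algebraMap K (v.adicCompletion K) k - x) + x := by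
      ring
    change Valued.v (algebraMap K (v.adicCompletion K) k) ≤ 1
    rw [this]
    exact le_trans (Valuation.map_add _ _ _) (max_le hk.le hx)
  obtain ⟨a, ha⟩ := exists_valuation_sub_lt_of_integer v hk1 1
  refine ⟨a, ?_⟩
  have h2 : Valued.v (algebraMap K (v.adicCompletion K) (algebraMap (𝓞 K) K a) -
      algebraMap K (v.adicCompletion K) k) < 1 := by
    rw [← map_sub]
    change Valued.v (((algebraMap (𝓞 K) K a - k : K)) : v.adicCompletion K) < 1
    rw [valuedAdicCompletion_eq_valuation' v]
    simpa using ha
  have : algebraMap K (v.adicCompletion K) (algebraMap (𝓞 K) K a) - x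
      = (algebraMap K (v.adicCompletion K) (algebraMap (𝓞 K) K a) -
      algebraMap K (v.adicCompletion K) k) + (algebraMap K (v.adicCompletion K) k - x) := by ring
  rw [this]
  exact lt_of_le_of_lt (Valuation.map_add _ _ _) (max_lt h2 hk)


open Valued in
/-- The residue field of `𝒪_v` is finite. -/
theorem finite_residueField_adicCompletion (v : HeightOneSpectrum (𝓞 K)) :
    Finite (Valued.ResidueField (v.adicCompletion K)) := by
  have : Finite (𝓞 K ⧸ v.asIdeal) := Ideal.finiteQuotientOfFreeOfNeBot v.asIdeal v.ne_bot
  -- the ring homomorphism `𝓞 K → 𝒪[K_v]`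
  let ι : 𝓞 K →+* 𝒪[v.adicCompletion K] :=
    { toFun := fun a => ⟨algebraMap K (v.adicCompletion K) (algebraMap (𝓞 K) K a),
        coe_algebraMap_mem (𝓞 K) K v a⟩
      map_one' := by ext; simp
      map_mul' := fun x y => by ext; simp
      map_zero' := by ext; simp
      map_add' := fun x y => by ext; simp }
  let φ : 𝓞 K →+* Valued.ResidueField (v.adicCompletion K) :=
    (IsLocalRing.residue _).comp ι
  have hker : ∀ a ∈ v.asIdeal, φ a = 0 := by
    intro a ha
    change IsLocalRing.residue _ (ι a) = 0
    rw [IsLocalRing.residue_eq_zero_iff, IsLocalRing.mem_maximalIdeal, mem_nonunits_iff,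
      Valuation.Integer.not_isUnit_iff_valuation_lt_one]
    change Valued.v ((algebraMap (𝓞 K) K a : K) : v.adicCompletion K) < 1
    rw [valuedAdicCompletion_eq_valuation' v]
    exact (valuation_lt_one_iff_mem v a).mpr ha
  have hsurj : Function.Surjective (Ideal.Quotient.lift v.asIdeal φ hker) := by
    intro y
    obtain ⟨x, rfl⟩ := IsLocalRing.residue_surjective y
    obtain ⟨a, ha⟩ := exists_int_sub_lt_one K v x.1 x.2
    refine ⟨Ideal.Quotient.mk _ a, ?_⟩
    rw [Ideal.Quotient.lift_mk]
    change IsLocalRing.residue _ (ι a) = IsLocalRing.residue _ x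
    rw [← sub_eq_zero, ← map_sub, IsLocalRing.residue_eq_zero_iff, IsLocalRing.mem_maximalIdeal,
      mem_nonunits_iff, Valuation.Integer.not_isUnit_iff_valuation_lt_one]
    exact ha
  exact Finite.of_surjective _ hsurj


open Valued in
/-- `𝒪[K_v]` is compact. -/
theorem compactSpace_integer_adicCompletion (v : HeightOneSpectrum (𝓞 K)) :
    CompactSpace 𝒪[v.adicCompletion K] := by
  rw [Valued.integer.compactSpace_iff_completeSpace_and_isDiscreteValuationRing_and_finite_residueField]
  refine ⟨?_, ?_, finite_residueField_adicCompletion K v⟩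
  · exact IsClosed.completeSpace_coe (hs := Valued.isClosed_integer _)
  · exact inferInstanceAs (IsDiscreteValuationRing (v.adicCompletionIntegers K))

/-- `𝒪_v` is a compact subset of `K_v`. -/
theorem isCompact_adicCompletionIntegers (v : HeightOneSpectrum (𝓞 K)) :
    IsCompact (v.adicCompletionIntegers K : Set (v.adicCompletion K)) := by
  have := compactSpace_integer_adicCompletion K v
  exact isCompact_iff_compactSpace.mpr this

/-- `𝒪_v` is compact. -/
theorem compactSpace_adicCompletionIntegers (v : HeightOneSpectrum (𝓞 K)) :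
    CompactSpace (v.adicCompletionIntegers K) :=
  isCompact_iff_compactSpace.mp (isCompact_adicCompletionIntegers K v)

end Fermat.Agent.LT.H767
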