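import Fermat.Agent.LT.H767.StrongApprox

/-!
# Row LT, tower T1 (basics) — helper767: `𝔸_K / K` is compact

OFF-MAIN.  Mathlib only (+ `LocalCompact.lean`, `StrongApprox.lean`).

* `isCompact_integralAdeles` : `∏ 𝒪_v` is a compact subset of the finite adeles.
* `exists_int_sub_norm_le` : every element of `K_∞` is within `infBound K` (at every infinite
  place) of an element of `𝓞 K`.
* `isCompact_adeleBox` : the box `{‖a_v‖ ≤ infBound K (v ∣ ∞), a_v ∈ 𝒪_v (v finite)}` is compact.
* `exists_sub_mem_adeleBox` : `𝔸_K = K + adeleBox K`.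
* `compactSpace_adele_quotient` : `𝔸_K / K` is compact.
-/

set_option autoImplicit false

open NumberField IsDedekindDomain IsDedekindDomain.HeightOneSpectrum

noncomputable section

namespace Fermat.Agent.LT.H767

variable (K : Type*) [Field K] [NumberField K]

/-- The integral finite adeles `∏ 𝒪_v`. -/
def integralAdeles : Set (FiniteAdeleRing (𝓞 K) K) :=
  {f | ∀ v : HeightOneSpectrum (𝓞 K), f v ∈ v.adicCompletionIntegers K}

/-- `∏ 𝒪_v` is compact. -/
theorem isCompact_integralAdeles : IsCompact (integralAdeles K) := by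
  have hc : ∀ v : HeightOneSpectrum (𝓞 K),
      CompactSpace ((v.adicCompletionIntegers K : Set (v.adicCompletion K))) :=
    fun v => compactSpace_adicCompletionIntegers K v
  have hrange : integralAdeles K = Set.range (RestrictedProduct.structureMap
      (fun v : HeightOneSpectrum (𝓞 K) => v.adicCompletion K)
      (fun v : HeightOneSpectrum (𝓞 K) => (v.adicCompletionIntegers K : Set (v.adicCompletion K)))
      Filter.cofinite) := by
    rw [RestrictedProduct.range_structureMap]
    rfl
  rw [hrange]
  exact isCompact_range RestrictedProduct.isEmbedding_structureMap.continuous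

open scoped Classical in
/-- The radius of the box at the infinite places. -/
def infBound : ℝ := ∑ i, ‖mixedEmbedding.latticeBasis K i‖

open scoped Classical in
theorem infBound_nonneg : 0 ≤ infBound K :=
  Finset.sum_nonneg fun _ _ => norm_nonneg _

open scoped Classical in
/-- Every element of `K_∞` is within `infBound K` of an element of `𝓞 K`. -/
theorem exists_int_sub_norm_le (x : InfiniteAdeleRing K) :
    ∃ a : 𝓞 K, ∀ v : InfinitePlace K,
      ‖x v - algebraMap K v.Completion (algebraMap (𝓞 K) K a)‖ ≤ infBound K := by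
  set y := InfiniteAdeleRing.ringEquiv_mixedSpace K x with hy
  set m := ZSpan.floor (mixedEmbedding.latticeBasis K) y with hm
  have hmem : (m : mixedEmbedding.mixedSpace K) ∈ mixedEmbedding.integerLattice K :=
    (mixedEmbedding.mem_span_latticeBasis K).mp m.2
  obtain ⟨a, ha⟩ := hmem
  have ha' : mixedEmbedding K (algebraMap (𝓞 K) K a) = (m : mixedEmbedding.mixedSpace K) := ha
  refine ⟨a, fun v => ?_⟩
  set x' : InfiniteAdeleRing K := x - algebraMap K (InfiniteAdeleRing K) (algebraMap (𝓞 K) K a)
    with hx'
  have hfr : InfiniteAdeleRing.ringEquiv_mixedSpace K x'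
      = ZSpan.fract (mixedEmbedding.latticeBasis K) y := by
    rw [hx', map_sub, ← InfiniteAdeleRing.mixedEmbedding_eq_algebraMap_comp, ha',
      ZSpan.fract_apply]
  have hnorm : ‖InfiniteAdeleRing.ringEquiv_mixedSpace K x'‖ ≤ infBound K := by
    rw [hfr]
    exact ZSpan.norm_fract_le (mixedEmbedding.latticeBasis K) y
  have hxv : x' v = x v - algebraMap K v.Completion (algebraMap (𝓞 K) K a) := rfl
  rw [← hxv]
  by_cases hv : v.IsReal
  · have h1 : ‖x' v‖ = ‖(InfiniteAdeleRing.ringEquiv_mixedSpace K x').1 ⟨v, hv⟩‖ := by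
      rw [InfiniteAdeleRing.ringEquiv_mixedSpace_apply]
      exact ((InfinitePlace.Completion.isometry_extensionEmbeddingOfIsReal hv).norm_map_of_map_zero
        (map_zero _) (x' v)).symm
    rw [h1]
    exact le_trans (norm_le_pi_norm _ _) (le_trans (norm_fst_le _) hnorm)
  · have hc : v.IsComplex := InfinitePlace.not_isReal_iff_isComplex.mp hv
    have h1 : ‖x' v‖ = ‖(InfiniteAdeleRing.ringEquiv_mixedSpace K x').2 ⟨v, hc⟩‖ := by
      rw [InfiniteAdeleRing.ringEquiv_mixedSpace_apply]
      exact ((InfinitePlace.Completion.isometry_extensionEmbedding v).norm_map_of_map_zero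
        (map_zero _) (x' v)).symm
    rw [h1]
    exact le_trans (norm_le_pi_norm _ _) (le_trans (norm_snd_le _) hnorm)

omit [NumberField K] in
/-- Closed balls of `K_v`, `v ∣ ∞`, are compact. -/
theorem isCompact_closedBall_completion (v : InfinitePlace K) (C : ℝ) :
    IsCompact {x : v.Completion | ‖x‖ ≤ C} := by
  have hiso := InfinitePlace.Completion.isometry_extensionEmbedding v
  have hce : Topology.IsClosedEmbedding (InfinitePlace.Completion.extensionEmbedding v) :=
    hiso.isClosedEmbedding
  have : {x : v.Completion | ‖x‖ ≤ C}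
      = (InfinitePlace.Completion.extensionEmbedding v) ⁻¹' (Metric.closedBall (0 : ℂ) C) := by
    ext x
    change ‖x‖ ≤ C ↔ InfinitePlace.Completion.extensionEmbedding v x ∈ Metric.closedBall (0 : ℂ) C
    rw [Metric.mem_closedBall, dist_zero_right, hiso.norm_map_of_map_zero (map_zero _) x]
  rw [this]
  exact hce.isCompact_preimage (isCompact_closedBall 0 C)

/-- The compact box of `𝔸_K` that surjects onto `𝔸_K / K`. -/
def adeleBox : Set (AdeleRing (𝓞 K) K) :=
  {a | (∀ v : InfinitePlace K, ‖a.1 v‖ ≤ infBound K) ∧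
    ∀ v : HeightOneSpectrum (𝓞 K), a.2 v ∈ v.adicCompletionIntegers K}

theorem isCompact_adeleBox : IsCompact (adeleBox K) := by
  have h1 : IsCompact {x : InfiniteAdeleRing K | ∀ v : InfinitePlace K, ‖x v‖ ≤ infBound K} := by
    have : {x : InfiniteAdeleRing K | ∀ v : InfinitePlace K, ‖x v‖ ≤ infBound K}
        = Set.pi Set.univ (fun v : InfinitePlace K => {y : v.Completion | ‖y‖ ≤ infBound K}) := by
      ext x
      constructor
      · intro h v _; exact h v
      · intro h v; exact h v (Set.mem_univ v)
    rw [this]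
    exact isCompact_univ_pi fun v => isCompact_closedBall_completion K v _
  have h2 := isCompact_integralAdeles K
  exact h1.prod h2

/-- `𝔸_K = K + adeleBox K`. -/
theorem exists_sub_mem_adeleBox (a : AdeleRing (𝓞 K) K) :
    ∃ k : K, a - algebraMap K (AdeleRing (𝓞 K) K) k ∈ adeleBox K := by
  obtain ⟨k, hk⟩ := exists_sub_mem_integers K a.2
  obtain ⟨b, hb⟩ := exists_int_sub_norm_le K (a.1 - algebraMap K (InfiniteAdeleRing K) k)
  refine ⟨k + algebraMap (𝓞 K) K b, fun v => ?_, fun v => ?_⟩
  · have : (a - algebraMap K (AdeleRing (𝓞 K) K) (k + algebraMap (𝓞 K) K b)).1 v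
        = (a.1 - algebraMap K (InfiniteAdeleRing K) k) v
          - algebraMap K v.Completion (algebraMap (𝓞 K) K b) := by
      change a.1 v - algebraMap K v.Completion (k + algebraMap (𝓞 K) K b)
        = (a.1 v - algebraMap K v.Completion k) - algebraMap K v.Completion (algebraMap (𝓞 K) K b)
      rw [map_add]; ring
    rw [this]
    exact hb v
  · have : (a - algebraMap K (AdeleRing (𝓞 K) K) (k + algebraMap (𝓞 K) K b)).2 v
        = (a.2 v - algebraMap K (v.adicCompletion K) k)
          - algebraMap K (v.adicCompletion K) (algebraMap (𝓞 K) K b) := by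
      change a.2 v - algebraMap K (v.adicCompletion K) (k + algebraMap (𝓞 K) K b)
        = (a.2 v - algebraMap K (v.adicCompletion K) k)
          - algebraMap K (v.adicCompletion K) (algebraMap (𝓞 K) K b)
      rw [map_add]; ring
    rw [this]
    exact sub_mem (hk v) (coe_algebraMap_mem (𝓞 K) K v b)

/-- **`𝔸_K / K` is compact.** -/
theorem compactSpace_adele_quotient :
    CompactSpace (AdeleRing (𝓞 K) K ⧸ AdeleRing.principalSubgroup (𝓞 K) K) := by
  refine ⟨?_⟩
  have himg : (QuotientAddGroup.mk : AdeleRing (𝓞 K) K →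
      AdeleRing (𝓞 K) K ⧸ AdeleRing.principalSubgroup (𝓞 K) K) '' adeleBox K = Set.univ := by
    apply Set.eq_univ_of_forall
    intro q
    obtain ⟨a, rfl⟩ := QuotientAddGroup.mk_surjective q
    obtain ⟨k, hk⟩ := exists_sub_mem_adeleBox K a
    refine ⟨_, hk, ?_⟩
    rw [QuotientAddGroup.eq]
    have : -(a - algebraMap K (AdeleRing (𝓞 K) K) k) + a = algebraMap K (AdeleRing (𝓞 K) K) k := by
      ring
    rw [this]
    exact ⟨k, rfl⟩
  rw [← himg]
  exact (isCompact_adeleBox K).image continuous_quot_mk

end Fermat.Agent.LT.H767
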