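import Mathlib

/-!
# Row LT, tower T1 (basics) — helper767: `K` is discrete in its adele ring

OFF-MAIN.  Mathlib only.

* `unitBox K` : the open set `{a | ‖a_v‖ < 1 (v ∣ ∞), a_v ∈ 𝒪_v (v finite)}` of `𝔸_K`.
* `eq_zero_of_mem_unitBox` : the only principal adele in `unitBox K` is `0`.
* `discreteTopology_principal` : the principal adeles form a discrete subgroup.
-/

set_option autoImplicit false

open NumberField IsDedekindDomain IsDedekindDomain.HeightOneSpectrum

noncomputable section

namespace Fermat.Agent.LT.H767

variable (K : Type*) [Field K] [NumberField K]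

/-- The standard open neighbourhood of `0` in the adele ring meeting `K` in `{0}`. -/
def unitBox : Set (AdeleRing (𝓞 K) K) :=
  {a | (∀ v : InfinitePlace K, ‖a.1 v‖ < 1) ∧
    ∀ v : HeightOneSpectrum (𝓞 K), a.2 v ∈ v.adicCompletionIntegers K}

theorem isOpen_unitBox : IsOpen (unitBox K) := by
  have h1 : IsOpen {x : InfiniteAdeleRing K | ∀ v : InfinitePlace K, ‖x v‖ < 1} := by
    have : {x : InfiniteAdeleRing K | ∀ v : InfinitePlace K, ‖x v‖ < 1}
        = ⋂ v : InfinitePlace K, (fun x : InfiniteAdeleRing K => x v) ⁻¹' {y | ‖y‖ < 1} := by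
      ext x; simp
    rw [this]
    refine isOpen_iInter_of_finite fun v => ?_
    exact (isOpen_lt continuous_norm continuous_const).preimage (continuous_apply v)
  have h2 : IsOpen {f : FiniteAdeleRing (𝓞 K) K |
      ∀ v : HeightOneSpectrum (𝓞 K), f v ∈ v.adicCompletionIntegers K} :=
    RestrictedProduct.isOpen_forall_mem (fun v => Valued.isOpen_valuationSubring _)
  exact h1.prod h2

theorem zero_mem_unitBox : (0 : AdeleRing (𝓞 K) K) ∈ unitBox K := by
  refine ⟨fun v => ?_, fun v => ?_⟩
  · change ‖(0 : v.Completion)‖ < 1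
    simp
  · exact zero_mem _

theorem eq_zero_of_mem_unitBox (x : K) (hx : algebraMap K (AdeleRing (𝓞 K) K) x ∈ unitBox K) :
    x = 0 := by
  obtain ⟨h1, h2⟩ := hx
  have hint : x ∈ (algebraMap (𝓞 K) K).range := by
    refine mem_integers_of_valuation_le_one K x fun v => ?_
    have := h2 v
    rw [mem_adicCompletionIntegers] at this
    rw [← valuedAdicCompletion_eq_valuation' v x]
    exact this
  obtain ⟨a, rfl⟩ := hint
  by_contra hne
  have ha : a ≠ 0 := fun h => hne (by simp [h])
  obtain ⟨w⟩ : Nonempty (InfinitePlace K) := inferInstance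
  have hlt : ∀ z : InfinitePlace K, z (a : K) < 1 := by
    intro z
    have := h1 z
    have h3 : ‖((algebraMap K (AdeleRing (𝓞 K) K) ((algebraMap (𝓞 K) K) a)).1 z)‖
        = z ((algebraMap (𝓞 K) K) a) := by
      change ‖(((algebraMap (𝓞 K) K) a : K) : z.Completion)‖ = _
      rw [InfinitePlace.Completion.norm_coe]
      rfl
    rw [h3] at this
    exact this
  have := InfinitePlace.one_le_of_lt_one (w := w) ha (fun z _ => hlt z)
  exact absurd (hlt w) (not_lt.mpr this)

theorem discreteTopology_principal :
    DiscreteTopology (AdeleRing.principalSubgroup (𝓞 K) K) := by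
  apply discreteTopology_of_isOpen_singleton_zero
  have : ({0} : Set (AdeleRing.principalSubgroup (𝓞 K) K)) =
      (Subtype.val : AdeleRing.principalSubgroup (𝓞 K) K → AdeleRing (𝓞 K) K) ⁻¹' unitBox K := by
    ext ⟨y, hy⟩
    simp only [Set.mem_singleton_iff, Set.mem_preimage]
    constructor
    · intro h
      have : y = 0 := by simpa using congrArg Subtype.val h
      subst this
      exact zero_mem_unitBox K
    · intro h
      obtain ⟨x, rfl⟩ := hy
      have := eq_zero_of_mem_unitBox K x h
      subst this
      ext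
      simp
  rw [this]
  exact (isOpen_unitBox K).preimage continuous_subtype_val

end Fermat.Agent.LT.H767
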