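import Fermat.Agent.LT.H767.LocalCompact

/-!
# Row LT, tower T1 (basics) — helper767: `𝔸_f = K + ∏ 𝒪_v`

OFF-MAIN.  Mathlib only (+ `LocalCompact.lean`).

* `exists_sub_mem_integers` : for every finite adele `a` there is `k : K` with
  `a v - k ∈ 𝒪_v` for all `v` (additive strong approximation at the finite places).
-/

set_option autoImplicit false

open NumberField IsDedekindDomain IsDedekindDomain.HeightOneSpectrum

noncomputable section

namespace Fermat.Agent.LT.H767

variable (K : Type*) [Field K] [NumberField K]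

/-- The valuation of the image of `k : K` in `K_v`. -/
theorem valued_algebraMap (v : HeightOneSpectrum (𝓞 K)) (k : K) :
    Valued.v (algebraMap K (v.adicCompletion K) k) = v.valuation K k :=
  valuedAdicCompletion_eq_valuation' v k

/-- The valuation of the image of `a : 𝓞 K` in `K_v` is at most one. -/
theorem valued_algebraMap_int_le_one (v : HeightOneSpectrum (𝓞 K)) (a : 𝓞 K) :
    Valued.v (algebraMap K (v.adicCompletion K) (algebraMap (𝓞 K) K a)) ≤ 1 := by
  rw [valued_algebraMap]
  exact valuation_le_one v a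

/-- Approximation of an element of `𝒪_v` by an element of `𝓞 K` to the precision of a non-zero
`d : 𝓞 K`. -/
theorem exists_int_sub_lt (v : HeightOneSpectrum (𝓞 K)) (x : v.adicCompletion K)
    (hx : Valued.v x ≤ 1) (d : 𝓞 K) (hd : d ≠ 0) :
    ∃ y : 𝓞 K, Valued.v (algebraMap K (v.adicCompletion K) (algebraMap (𝓞 K) K y) - x)
      < Valued.v (algebraMap K (v.adicCompletion K) (algebraMap (𝓞 K) K d)) := by
  set D : v.adicCompletion K := algebraMap K (v.adicCompletion K) (algebraMap (𝓞 K) K d) with hD
  have hdK : (algebraMap (𝓞 K) K d) ≠ 0 := by simpa using hd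
  have hD0 : D ≠ 0 := by
    rw [hD]; simpa using hdK
  have hn : Metric.ball x ‖D‖ ∈ nhds x := Metric.ball_mem_nhds x (norm_pos_iff.mpr hD0)
  have hdense : DenseRange (algebraMap K (v.adicCompletion K)) := denseRange_algebraMap K v
  obtain ⟨_, hy, k, rfl⟩ := mem_closure_iff_nhds.mp (hdense x) _ hn
  rw [Metric.mem_ball, dist_eq_norm] at hy
  have hk : Valued.v (algebraMap K (v.adicCompletion K) k - x) < Valued.v D :=
    Valued.toNormedField.norm_lt_iff.mp hy
  have hD1 : Valued.v D ≤ 1 := valued_algebraMap_int_le_one K v d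
  have hk1 : v.valuation K k ≤ 1 := by
    rw [← valued_algebraMap K v k]
    have : (algebraMap K (v.adicCompletion K) k)
        = (algebraMap K (v.adicCompletion K) k - x) + x := by ring
    rw [this]
    exact le_trans (Valuation.map_add _ _ _) (max_le (hk.le.trans hD1) hx)
  have hγ : v.valuation K (algebraMap (𝓞 K) K d) ≠ 0 := (Valuation.ne_zero_iff _).mpr hdK
  obtain ⟨y, hy'⟩ := exists_valuation_sub_lt_of_integer v hk1 (Units.mk0 _ hγ)
  refine ⟨y, ?_⟩
  have h2 : Valued.v (algebraMap K (v.adicCompletion K) (algebraMap (𝓞 K) K y) -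
      algebraMap K (v.adicCompletion K) k) < Valued.v D := by
    rw [← map_sub, valued_algebraMap, hD, valued_algebraMap]
    simpa using hy'
  have : algebraMap K (v.adicCompletion K) (algebraMap (𝓞 K) K y) - x
      = (algebraMap K (v.adicCompletion K) (algebraMap (𝓞 K) K y) -
      algebraMap K (v.adicCompletion K) k) + (algebraMap K (v.adicCompletion K) k - x) := by ring
  rw [this]
  exact lt_of_le_of_lt (Valuation.map_add _ _ _) (max_lt h2 hk)


/-- Local denominators: every element of `K_v` becomes integral after multiplication by a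
non-zero element of `𝓞 K`. -/
theorem exists_int_mul_le_one (v : HeightOneSpectrum (𝓞 K)) (x : v.adicCompletion K) :
    ∃ d : 𝓞 K, d ≠ 0 ∧
      Valued.v (algebraMap K (v.adicCompletion K) (algebraMap (𝓞 K) K d) * x) ≤ 1 := by
  obtain ⟨π, hπ, hπ0⟩ := Submodule.exists_mem_ne_zero_of_ne_bot v.ne_bot
  set P0 : v.adicCompletion K := algebraMap K (v.adicCompletion K) (algebraMap (𝓞 K) K π) with hP0
  have hP1 : ‖P0‖ < 1 := by
    rw [Valued.toNormedField.norm_lt_one_iff, hP0, valued_algebraMap]
    exact (valuation_lt_one_iff_mem v π).mpr hπ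
  obtain ⟨n, hn⟩ := exists_pow_lt_of_lt_one (show (0 : ℝ) < 1 / (‖x‖ + 1) by positivity) hP1
  refine ⟨π ^ n, pow_ne_zero _ hπ0, ?_⟩
  rw [← Valued.toNormedField.norm_le_one_iff, map_pow, map_pow, norm_mul, norm_pow]
  have h1 : ‖P0‖ ^ n * ‖x‖ ≤ 1 / (‖x‖ + 1) * (‖x‖ + 1) := by
    apply mul_le_mul hn.le (by linarith) (norm_nonneg _) (by positivity)
  have h2 : 1 / (‖x‖ + 1) * (‖x‖ + 1) = 1 := by
    field_simp
  linarith

/-- Global denominators: every finite adele becomes integral after multiplication by a non-zero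
element of `𝓞 K`. -/
theorem exists_denominator (a : FiniteAdeleRing (𝓞 K) K) :
    ∃ d : 𝓞 K, d ≠ 0 ∧ ∀ v : HeightOneSpectrum (𝓞 K),
      Valued.v (algebraMap K (v.adicCompletion K) (algebraMap (𝓞 K) K d) * a v) ≤ 1 := by
  classical
  have hfin : {v : HeightOneSpectrum (𝓞 K) | ¬ a v ∈ v.adicCompletionIntegers K}.Finite :=
    Filter.eventually_cofinite.mp a.2
  choose δ hδ0 hδ using fun v : HeightOneSpectrum (𝓞 K) => exists_int_mul_le_one K v (a v)
  refine ⟨∏ v ∈ hfin.toFinset, δ v, Finset.prod_ne_zero_iff.mpr fun v _ => hδ0 v, fun v => ?_⟩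
  by_cases hv : v ∈ hfin.toFinset
  · rw [← Finset.mul_prod_erase _ _ hv]
    have key : algebraMap K (v.adicCompletion K)
          (algebraMap (𝓞 K) K (δ v * ∏ x ∈ hfin.toFinset.erase v, δ x)) * a v
        = (algebraMap K (v.adicCompletion K) (algebraMap (𝓞 K) K (δ v)) * a v) *
          algebraMap K (v.adicCompletion K)
            (algebraMap (𝓞 K) K (∏ x ∈ hfin.toFinset.erase v, δ x)) := by
      rw [map_mul, map_mul]; ring
    rw [key, map_mul]
    calc _ ≤ 1 * 1 := mul_le_mul' (hδ v) (valued_algebraMap_int_le_one K v _)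
      _ = 1 := one_mul 1
  · have hav : Valued.v (a v) ≤ 1 := by
      by_contra h
      exact hv (hfin.mem_toFinset.mpr h)
    rw [map_mul]
    calc _ ≤ 1 * 1 := mul_le_mul' (valued_algebraMap_int_le_one K v _) hav
      _ = 1 := one_mul 1


/-- **Additive strong approximation at the finite places**: `𝔸_f = K + ∏ 𝒪_v`. -/
theorem exists_sub_mem_integers (a : FiniteAdeleRing (𝓞 K) K) :
    ∃ k : K, ∀ v : HeightOneSpectrum (𝓞 K),
      a v - algebraMap K (v.adicCompletion K) k ∈ v.adicCompletionIntegers K := by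
  classical
  obtain ⟨d, hd0, hd⟩ := exists_denominator K a
  have hdK : (algebraMap (𝓞 K) K d) ≠ 0 := by simpa using hd0
  have hT : {v : HeightOneSpectrum (𝓞 K) | v.asIdeal ∣ Ideal.span {d}}.Finite :=
    Ideal.finite_factors (by simpa using hd0)
  choose y hy using fun v : HeightOneSpectrum (𝓞 K) =>
    exists_int_sub_lt K v (algebraMap K _ (algebraMap (𝓞 K) K d) * a v) (hd v) d hd0
  obtain ⟨z, hz⟩ := IsDedekindDomain.exists_forall_sub_mem_ideal (s := hT.toFinset)
    (fun v : HeightOneSpectrum (𝓞 K) => v.asIdeal)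
    (fun v => multiplicity v.asIdeal (Ideal.span {d}))
    (fun v _ => v.prime) (fun v _ w _ hvw h => hvw (HeightOneSpectrum.ext h))
    (fun v => y v.1)
  have hz' : ∀ v : HeightOneSpectrum (𝓞 K),
      z - y v ∈ v.asIdeal ^ multiplicity v.asIdeal (Ideal.span {d}) := by
    intro v
    by_cases hv : v ∈ hT.toFinset
    · exact hz v hv
    · have : ¬ v.asIdeal ∣ Ideal.span {d} := fun h => hv (hT.mem_toFinset.mpr h)
      rw [multiplicity_eq_zero.mpr this, pow_zero, Ideal.one_eq_top]
      exact Submodule.mem_top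
  refine ⟨algebraMap (𝓞 K) K z / algebraMap (𝓞 K) K d, fun v => ?_⟩
  rw [mem_adicCompletionIntegers]
  set D : v.adicCompletion K := algebraMap K (v.adicCompletion K) (algebraMap (𝓞 K) K d) with hD
  have hD0 : D ≠ 0 := by rw [hD]; simpa using hdK
  have hvD : Valued.v D ≠ 0 := (Valuation.ne_zero_iff _).mpr hD0
  -- the numerator is divisible by `d` at `v`
  have hnum : Valued.v (D * a v - algebraMap K (v.adicCompletion K) (algebraMap (𝓞 K) K z))
      ≤ Valued.v D := by
    have h1 : Valued.v (algebraMap K (v.adicCompletion K) (algebraMap (𝓞 K) K (z - y v)))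
        ≤ Valued.v D := by
      rw [hD, valued_algebraMap, valued_algebraMap, valuation_of_algebraMap,
        valuation_of_algebraMap, intValuation_eq_exp_neg_multiplicity v hd0,
        intValuation_le_pow_iff_mem]
      exact hz' v
    have h2 : D * a v - algebraMap K (v.adicCompletion K) (algebraMap (𝓞 K) K z)
        = -(algebraMap K (v.adicCompletion K) (algebraMap (𝓞 K) K (y v)) - D * a v)
          + -(algebraMap K (v.adicCompletion K) (algebraMap (𝓞 K) K (z - y v))) := by
      rw [map_sub, map_sub]; ring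
    rw [h2]
    refine le_trans (Valuation.map_add _ _ _) (max_le ?_ ?_)
    · rw [Valuation.map_neg]; exact (hy v).le
    · rw [Valuation.map_neg]; exact h1
  have h3 : a v - algebraMap K (v.adicCompletion K)
        (algebraMap (𝓞 K) K z / algebraMap (𝓞 K) K d)
      = D⁻¹ * (D * a v - algebraMap K (v.adicCompletion K) (algebraMap (𝓞 K) K z)) := by
    rw [map_div₀, ← hD]
    field_simp
  rw [h3, map_mul, map_inv₀]
  calc (Valued.v D)⁻¹ * _ ≤ (Valued.v D)⁻¹ * Valued.v D := by gcongr
    _ = 1 := inv_mul_cancel₀ hvD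

end Fermat.Agent.LT.H767
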